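import Mathlib

/-!
# RIBET, piece NE (helper523): a stable line from "eigenvalues `1` and `χ`"

Pure linear algebra.  `V` is a vector space of dimension `2` over a field `k`, `G` a group acting
through `ρ : G →* End_k V`, `χ : G →* k` a multiplicative character, and every `g` satisfies
`(ρ g - 1) (ρ g - χ g) = 0`.  Then `V` has a `G`-stable line
(`exists_stable_line_of_character`).

This is the group-theoretic core of "an Eisenstein residual representation is reducible".
-/

set_option autoImplicit false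

namespace Fermat.Agent.Ribet.H523

open Module

variable {k : Type*} [Field k] {V : Type*} [AddCommGroup V] [Module k V]

/-- In a `2`-dimensional space a proper submodule containing a nonzero vector `v` is the line
spanned by `v`. -/
theorem eq_span_singleton_of_mem_of_ne_top (hV : finrank k V = 2) {L : Submodule k V}
    (hL : L ≠ ⊤) {v : V} (hv : v ≠ 0) (h : v ∈ L) : L = Submodule.span k {v} := by
  have : FiniteDimensional k V := FiniteDimensional.of_finrank_pos (by omega)
  have hle : Submodule.span k {v} ≤ L := (Submodule.span_singleton_le_iff_mem v L).mpr h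
  have h1 : finrank k (Submodule.span k {v}) = 1 := finrank_span_singleton hv
  have h2 : finrank k L < 2 := hV ▸ Submodule.finrank_lt hL
  have h3 : finrank k (Submodule.span k {v}) ≤ finrank k L := Submodule.finrank_mono hle
  exact (Submodule.eq_of_le_of_finrank_eq hle (by omega)).symm

/-- Two proper submodules of a `2`-dimensional space with a common nonzero vector are equal. -/
theorem eq_of_mem_of_mem_of_ne_top (hV : finrank k V = 2) {L L' : Submodule k V}
    (hL : L ≠ ⊤) (hL' : L' ≠ ⊤) {v : V} (hv : v ≠ 0) (h : v ∈ L) (h' : v ∈ L') : L = L' := by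
  rw [eq_span_singleton_of_mem_of_ne_top hV hL hv h,
    eq_span_singleton_of_mem_of_ne_top hV hL' hv h']

/-- A line in a `2`-dimensional space is neither `⊥` nor `⊤`. -/
theorem span_singleton_ne_bot_ne_top (hV : finrank k V = 2) {v : V} (hv : v ≠ 0) :
    Submodule.span k {v} ≠ ⊥ ∧ Submodule.span k {v} ≠ ⊤ := by
  refine ⟨fun h => hv ((Submodule.span_singleton_eq_bot).mp h), fun h => ?_⟩
  have h1 : finrank k (Submodule.span k {v}) = 1 := finrank_span_singleton hv
  rw [h, finrank_top, hV] at h1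
  omega

/-- A square-zero endomorphism of a nonzero space kills a nonzero vector. -/
theorem exists_ne_zero_apply_eq_zero_of_sq_zero [Nontrivial V] (m : Module.End k V)
    (hm : m * m = 0) : ∃ v : V, v ≠ 0 ∧ m v = 0 := by
  obtain ⟨w, hw⟩ := exists_ne (0 : V)
  by_cases h : m w = 0
  · exact ⟨w, hw, h⟩
  · refine ⟨m w, h, ?_⟩
    have := congrArg (fun f : Module.End k V => f w) hm
    simpa using this

/-- Two square-zero endomorphisms `n₀`, `n₁ ≠ 0` of a `2`-dimensional space such that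
`(1 + n₀)(1 + n₁) - 1` is square-zero as well have the same kernel. -/
theorem ker_eq_ker_of_sq_zero (hV : finrank k V = 2) (n₀ n₁ : Module.End k V)
    (h₀ : n₀ * n₀ = 0) (h₁ : n₁ * n₁ = 0) (hL₀ : LinearMap.ker n₀ ≠ ⊤)
    (hL₁ : LinearMap.ker n₁ ≠ ⊤)
    (hm : (n₀ + n₁ + n₀ * n₁) * (n₀ + n₁ + n₀ * n₁) = 0) :
    LinearMap.ker n₀ = LinearMap.ker n₁ := by
  have : Nontrivial V := Module.nontrivial_of_finrank_pos (R := k) (by omega)
  obtain ⟨v, hv, hv0⟩ := exists_ne_zero_apply_eq_zero_of_sq_zero _ hm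
  have hn₀' : ∀ w : V, n₀ (n₀ w) = 0 := fun w => by
    have := congrArg (fun f : Module.End k V => f w) h₀
    simpa using this
  have hn₁' : ∀ w : V, n₁ (n₁ w) = 0 := fun w => by
    have := congrArg (fun f : Module.End k V => f w) h₁
    simpa using this
  have hv1 : n₀ v + n₁ v + n₀ (n₁ v) = 0 := by
    simpa using hv0
  have hmem₁ : n₁ v ∈ LinearMap.ker n₁ := hn₁' v
  have hmem₀ : n₁ v ∈ LinearMap.ker n₀ := by
    have e0 : n₁ v + n₀ (v + n₁ v) = 0 := by
      rw [map_add, ← hv1]; abel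
    have e : n₁ v = -(n₀ (v + n₁ v)) := eq_neg_of_add_eq_zero_left e0
    rw [LinearMap.mem_ker, e, map_neg, hn₀', neg_zero]
  by_cases hz : n₁ v = 0
  · have hz0 : n₀ v = 0 := by
      rw [hz, map_zero, add_zero, add_zero] at hv1
      exact hv1
    exact eq_of_mem_of_mem_of_ne_top hV hL₀ hL₁ hv hz0 hz
  · exact eq_of_mem_of_mem_of_ne_top hV hL₀ hL₁ hz hmem₀ hmem₁

/-- **Stable line.**  If every `g` satisfies `(ρ g - 1)(ρ g - χ g) = 0` for a multiplicative
character `χ`, then the `2`-dimensional representation `ρ` has a stable line. -/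
theorem exists_stable_line_of_character (hV : finrank k V = 2) {G : Type*} [Group G]
    (ρ : G →* Module.End k V) (χ : G →* k)
    (h : ∀ g : G, (ρ g - 1) * (ρ g - χ g • (1 : Module.End k V)) = 0) :
    ∃ N : Submodule k V, N ≠ ⊥ ∧ N ≠ ⊤ ∧ ∀ g : G, ∀ x ∈ N, ρ g x ∈ N := by
  have : FiniteDimensional k V := FiniteDimensional.of_finrank_pos (by omega)
  have : Nontrivial V := Module.nontrivial_of_finrank_pos (R := k) (by omega)
  -- elements of the kernel of `χ` are unipotent
  have hsq : ∀ g : G, χ g = 1 → (ρ g - 1) * (ρ g - 1) = 0 := by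
    intro g hg
    have := h g
    rwa [hg, one_smul] at this
  have hinv : ∀ g : G, ρ g * ρ g⁻¹ = 1 := fun g => by rw [← map_mul, mul_inv_cancel, map_one]
  have hinv' : ∀ g : G, ρ g⁻¹ * ρ g = 1 := fun g => by rw [← map_mul, inv_mul_cancel, map_one]
  by_cases hcase : ∃ h₀ : G, χ h₀ = 1 ∧ ρ h₀ ≠ 1
  · -- Case 1: a nontrivial unipotent element in the kernel of `χ`
    obtain ⟨h₀, hχ₀, hρ₀⟩ := hcase
    have hn₀ : (ρ h₀ - 1) * (ρ h₀ - 1) = 0 := hsq h₀ hχ₀
    have hLtop : LinearMap.ker (ρ h₀ - 1) ≠ ⊤ := by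
      intro htop
      exact hρ₀ (sub_eq_zero.mp (LinearMap.ker_eq_top.mp htop))
    have hLbot : LinearMap.ker (ρ h₀ - 1) ≠ ⊥ := by
      intro hbot
      obtain ⟨v, hv, hv0⟩ := exists_ne_zero_apply_eq_zero_of_sq_zero (ρ h₀ - 1) hn₀
      have : v ∈ LinearMap.ker (ρ h₀ - 1) := hv0
      rw [hbot] at this
      exact hv this
    refine ⟨LinearMap.ker (ρ h₀ - 1), hLbot, hLtop, ?_⟩
    intro g x hx
    -- the conjugate `h₁ = g h₀ g⁻¹`
    have hχ₁ : χ (g * h₀ * g⁻¹) = 1 := by
      rw [map_mul, map_mul, hχ₀, mul_one, ← map_mul, mul_inv_cancel, map_one]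
    have hρ₁ : ρ (g * h₀ * g⁻¹) - 1 = ρ g * (ρ h₀ - 1) * ρ g⁻¹ := by
      rw [map_mul, map_mul, mul_sub, sub_mul, mul_one, hinv]
    have hn₁ : (ρ (g * h₀ * g⁻¹) - 1) * (ρ (g * h₀ * g⁻¹) - 1) = 0 := hsq _ hχ₁
    have hL₁top : LinearMap.ker (ρ (g * h₀ * g⁻¹) - 1) ≠ ⊤ := by
      intro htop
      have h0 : ρ g * (ρ h₀ - 1) * ρ g⁻¹ = 0 := by
        rw [← hρ₁]; exact LinearMap.ker_eq_top.mp htop
      have h1 : ρ h₀ - 1 = ρ g⁻¹ * (ρ g * (ρ h₀ - 1) * ρ g⁻¹) * ρ g := by
        rw [mul_assoc (ρ g), ← mul_assoc (ρ g⁻¹), hinv', one_mul, mul_assoc, hinv', mul_one]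
      rw [h0, mul_zero, zero_mul] at h1
      exact hρ₀ (sub_eq_zero.mp h1)
    -- the product `h₀ h₁` is unipotent as well
    have hχ₂ : χ (h₀ * (g * h₀ * g⁻¹)) = 1 := by rw [map_mul, hχ₀, hχ₁, one_mul]
    have hm : ρ (h₀ * (g * h₀ * g⁻¹)) - 1 =
        (ρ h₀ - 1) + (ρ (g * h₀ * g⁻¹) - 1) + (ρ h₀ - 1) * (ρ (g * h₀ * g⁻¹) - 1) := by
      rw [map_mul ρ h₀]
      noncomm_ring
    have hmm := hsq _ hχ₂
    rw [hm] at hmm
    have hLeq : LinearMap.ker (ρ h₀ - 1) = LinearMap.ker (ρ (g * h₀ * g⁻¹) - 1) :=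
      ker_eq_ker_of_sq_zero hV _ _ hn₀ hn₁ hLtop hL₁top hmm
    rw [hLeq, LinearMap.mem_ker, hρ₁]
    have hx0 : (ρ h₀ - 1) x = 0 := hx
    have hgx : ρ g⁻¹ (ρ g x) = x := by
      have := congrArg (fun f : Module.End k V => f x) (hinv' g)
      simp only [Module.End.mul_apply, Module.End.one_apply] at this
      exact this
    rw [Module.End.mul_apply, Module.End.mul_apply, hgx, hx0, map_zero]
  · -- Case 2: `ρ` is trivial on the kernel of `χ`, hence has commutative image
    have htriv : ∀ g : G, χ g = 1 → ρ g = 1 := by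
      intro g hg
      by_contra hne
      exact hcase ⟨g, hg, hne⟩
    have hcomm : ∀ g₁ g₂ : G, ρ g₁ * ρ g₂ = ρ g₂ * ρ g₁ := by
      intro g₁ g₂
      have h1 : χ (g₁ * g₂ * g₁⁻¹ * g₂⁻¹) = 1 := by
        have e1 : χ g₁ * χ g₁⁻¹ = 1 := by rw [← map_mul, mul_inv_cancel, map_one]
        have e2 : χ g₂ * χ g₂⁻¹ = 1 := by rw [← map_mul, mul_inv_cancel, map_one]
        rw [map_mul, map_mul, map_mul]
        calc χ g₁ * χ g₂ * χ g₁⁻¹ * χ g₂⁻¹ = (χ g₁ * χ g₁⁻¹) * (χ g₂ * χ g₂⁻¹) := by ring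
          _ = 1 := by rw [e1, e2, one_mul]
      have h2 := htriv _ h1
      have h3 : g₁ * g₂ = (g₁ * g₂ * g₁⁻¹ * g₂⁻¹) * (g₂ * g₁) := by group
      rw [← map_mul, ← map_mul, h3, map_mul, h2, one_mul]
    by_cases hcase2 : ∃ g : G, ρ g ≠ 1 ∧ LinearMap.ker (ρ g - 1) ≠ ⊥
    · obtain ⟨g, hg1, hgker⟩ := hcase2
      refine ⟨LinearMap.ker (ρ g - 1), hgker, ?_, ?_⟩
      · intro htop
        exact hg1 (sub_eq_zero.mp (LinearMap.ker_eq_top.mp htop))
      · intro g' x hx
        rw [LinearMap.mem_ker] at hx ⊢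
        have hc : (ρ g - 1) * ρ g' = ρ g' * (ρ g - 1) := by
          rw [sub_mul, mul_sub, one_mul, mul_one, hcomm]
        have := congrArg (fun f : Module.End k V => f x) hc
        simp only [Module.End.mul_apply] at this
        rw [this, hx, map_zero]
    · -- every `ρ g` is a scalar
      obtain ⟨v, hv⟩ := exists_ne (0 : V)
      refine ⟨Submodule.span k {v}, (span_singleton_ne_bot_ne_top hV hv).1,
        (span_singleton_ne_bot_ne_top hV hv).2, ?_⟩
      intro g x hx
      by_cases hg1 : ρ g = 1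
      · rw [hg1]; exact hx
      · have hker : LinearMap.ker (ρ g - 1) = ⊥ := by
          by_contra hne
          exact hcase2 ⟨g, hg1, hne⟩
        have h0 : (ρ g - 1) ((ρ g - χ g • (1 : Module.End k V)) x) = 0 := by
          have := congrArg (fun f : Module.End k V => f x) (h g)
          simpa using this
        have h1 : (ρ g - χ g • (1 : Module.End k V)) x ∈ LinearMap.ker (ρ g - 1) := h0
        rw [hker, Submodule.mem_bot] at h1
        have h2 : ρ g x = χ g • x := by
          have : ρ g x - χ g • x = 0 := by simpa using h1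
          exact sub_eq_zero.mp this
        rw [h2]
        exact Submodule.smul_mem _ _ hx

end Fermat.Agent.Ribet.H523
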