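import Fermat.Agent.Ribet.Spec
import Fermat.Agent.Ribet.H523.StableLine
import Fermat.Agent.Lib.Cheb.Chebotarev
import Fermat.Agent.Lib.Frob.Glue
import Fermat.Agent.Lib.Frob.A1.Main
import Fermat.Agent.Lib.Frob.A2.Main
import Fermat.Agent.Lib.VC.BaseChange
import Fermat.Agent.S59.H127.TateE
import Fermat.Agent.S55.H414.CycloPow

/-!
# RIBET, piece NE (helper523): `NonEisensteinStatement`, UNCONDITIONAL

`nonEisenstein : Spec.NonEisensteinStatement`: for a Frey package `P` with irreducible `E[p]`, an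
integral model `W` of the Frey curve and a finite set `S`, there is a prime `ℓ ∉ S` of good
reduction of `W` with `a_ℓ(W) ≢ ℓ + 1 mod p`.

More generally (`exists_prime_not_eisenstein`): the same for every elliptic curve `E` over `ℚ`
with an integral model `W` and every prime `p` with `E[p]` irreducible.

Proof.  Otherwise every Frobenius `τ` at a good prime `ℓ ≥ 5`, `ℓ ∉ S`, `ℓ ≠ p` satisfies
`(τ - 1)(τ - ℓ) = 0` on `E[p]` (Frobenius relation `τ² - a_ℓ τ + ℓ = 0`, `Lib/Frob`), and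
`ℓ = χ(τ)` for the mod `p` cyclotomic character `χ` (`S55/H414`).  By Chebotarev (`Lib/Cheb`,
Tier 2) every `σ ∈ G_ℚ` satisfies `(σ - 1)(σ - χ(σ)) = 0` on `E[p]`, and
`exists_stable_line_of_character` gives a stable line.  Neither the Weil pairing (`det = χ`) nor
the trace formula is needed.
-/

set_option autoImplicit false

open WeierstrassCurve WeierstrassCurve.Affine WeierstrassCurve.Affine.Point

namespace Fermat.Agent.Ribet.H523

/-- `ℚ̄`. -/
abbrev Qb : Type := AlgebraicClosure ℚ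

/-- `Gal(ℚ̄/ℚ)`. -/
abbrev GQ : Type := Qb ≃ₐ[ℚ] Qb

/-- **Frobenius relation on `E(ℚ̄)`** for an elliptic curve `E` over `ℚ` with integral model `W`:
transport of `Lib/Frob`'s `FrobRelation` (which lives on the points of `W`) along the change of
variables. -/
theorem frobRelation_of_isIntegralModelOf (E : WeierstrassCurve ℚ) (W : WeierstrassCurve ℤ)
    (hW : W.IsIntegralModelOf E) (ℓ : ℕ) (hℓ : ℓ.Prime) (h5 : 5 ≤ ℓ) (hgood : W.IsGoodPrimeFor ℓ)
    (A : ValuationSubring Qb) (τ : GQ) (hA : A.LiesOverPrime ℓ) (hτ : A.IsFrobeniusAt τ ℓ)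
    (n : ℕ) (hn : 0 < n) (hℓn : ¬ ℓ ∣ n) (Q : (E⁄Qb).Point) (hQ : n • Q = 0) :
    τ • τ • Q - W.apOfModel ℓ • τ • Q + (ℓ : ℤ) • Q = 0 := by
  obtain ⟨C, hC⟩ := hW
  have hrel := Fermat.Agent.Lib.Frob.frobRelation_of_parts Fermat.Agent.Lib.Frob.frobRelationFin
    Fermat.Agent.Lib.Frob.reductionData W ℓ hℓ h5 hgood A τ hA hτ n hn hℓn
  have key : ∀ (W' : WeierstrassCurve ℚ), C • E = W' →
      (∀ P : (W'⁄Qb).Point, n • P = 0 →
        τ • τ • P - W.apOfModel ℓ • τ • P + (ℓ : ℤ) • P = 0) →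
      τ • τ • Q - W.apOfModel ℓ • τ • Q + (ℓ : ℤ) • Q = 0 := by
    intro W' hW' hP
    subst hW'
    have h1 := hP ((Fermat.Agent.Lib.VC.vcPointBC E C Qb).symm Q) (by
      rw [← map_nsmul, hQ, _root_.map_zero])
    have h2 := congrArg (Fermat.Agent.Lib.VC.vcPointBC E C Qb) h1
    simp only [map_add, map_sub, map_zsmul, _root_.map_zero, algEquiv_smul_def] at h2
    rw [← Fermat.Agent.Lib.VC.map_vcPointBC, ← Fermat.Agent.Lib.VC.map_vcPointBC,
      AddEquiv.apply_symm_apply] at h2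
    exact h2
  exact key _ hC hrel

section relation

open Fermat.Agent.S55.H414 Fermat.Agent.S55.Bridge

variable (E : WeierstrassCurve ℚ) (p : ℕ) [Fact p.Prime]

/-- The mod `p` cyclotomic character of `G_ℚ`, with values in the multiplicative monoid of
`𝔽_p`. -/
noncomputable def chiBar : GQ →* ZMod p :=
  (Units.coeHom (ZMod p)).comp (cycloPow p)

theorem chiBar_apply (σ : GQ) : chiBar p σ = ((cycloPow p σ : (ZMod p)ˣ) : ZMod p) := rfl

/-- The integral model of an elliptic curve has nonzero discriminant. -/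
theorem Δ_ne_zero_of_isIntegralModelOf {E : WeierstrassCurve ℚ} (hE : E.Δ ≠ 0)
    {W : WeierstrassCurve ℤ} (hW : W.IsIntegralModelOf E) : W.Δ ≠ 0 := by
  obtain ⟨C, hC⟩ := hW
  intro h0
  have h1 : (W.map (Int.castRingHom ℚ)).Δ = 0 := by
    rw [WeierstrassCurve.map_Δ, h0, _root_.map_zero]
  rw [← hC, WeierstrassCurve.variableChange_Δ] at h1
  rcases mul_eq_zero.mp h1 with h | h
  · exact (pow_ne_zero 12 (Units.ne_zero C.u⁻¹)) h
  · exact hE h

/-- **Eisenstein relation.**  If `a_ℓ(W) ≡ ℓ + 1 mod p` for all good primes `ℓ ∉ S`, then every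
`σ ∈ G_ℚ` satisfies `(σ - 1)(σ - χ(σ)) = 0` on `E[p]`. -/
theorem sub_one_mul_sub_chiBar_eq_zero [(E⁄Qb).IsElliptic] (W : WeierstrassCurve ℤ)
    (hW : W.IsIntegralModelOf E) (hWΔ : W.Δ ≠ 0) (S : Finset ℕ)
    (hEis : ∀ ℓ : ℕ, ℓ.Prime → ℓ ∉ S → W.IsGoodPrimeFor ℓ →
      (p : ℤ) ∣ W.apOfModel ℓ - (ℓ + 1)) (σ : GQ) :
    (galoisRepModuleEnd (K := Qb) ℚ E p σ - 1) *
      (galoisRepModuleEnd (K := Qb) ℚ E p σ -
        chiBar p σ • (1 : Module.End (ZMod p) (Submodule.torsionBy ℤ (E⁄Qb).Point p))) = 0 := by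
  have hp : p.Prime := Fact.out
  obtain ⟨L, hLfin, hL⟩ := Fermat.Agent.S59.H127.exists_finite_level E p hp.one_le
  have := hLfin
  have hEfin : FiniteDimensional ℚ ↥(L ⊔ cycloLevel p) :=
    IntermediateField.finiteDimensional_sup L (cycloLevel p)
  obtain ⟨ℓ, A, τ, hℓ, hℓS, hA, hτ, -, hτσ⟩ :=
    Fermat.Agent.Lib.Cheb.chebotarev (L ⊔ cycloLevel p) hEfin σ
      (S ∪ {2, 3, p} ∪ W.Δ.natAbs.primeFactors)
  simp only [Finset.mem_union, Finset.mem_insert, Finset.mem_singleton, not_or] at hℓS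
  obtain ⟨⟨hℓS, hℓ2, hℓ3, hℓp⟩, hℓΔ⟩ := hℓS
  have h5 : 5 ≤ ℓ := by
    have h2 := hℓ.two_le
    by_contra hlt
    have h4 : ℓ = 4 := by omega
    rw [h4] at hℓ
    exact absurd hℓ (by decide)
  have hgood : W.IsGoodPrimeFor ℓ := by
    intro hdvd
    apply hℓΔ
    rw [Nat.mem_primeFactors]
    exact ⟨hℓ, Int.natCast_dvd.mp hdvd, Int.natAbs_ne_zero.mpr hWΔ⟩
  -- `τ` and `σ` agree on the `p`-torsion points
  have hpt : ∀ P : (E⁄Qb).Point, p • P = 0 → τ • P = σ • P := by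
    intro P hP
    have h1 : (σ⁻¹ * τ) • P = P := by
      refine hL (σ⁻¹ * τ) (fun x hx => ?_) P hP
      rw [AlgEquiv.mul_apply, hτσ x (le_sup_left (a := L) hx)]
      exact σ.symm_apply_apply x
    calc τ • P = σ • (σ⁻¹ * τ) • P := by rw [smul_smul, mul_inv_cancel_left]
      _ = σ • P := by rw [h1]
  have hmem : ∀ x : Submodule.torsionBy ℤ (E⁄Qb).Point p, p • (x : (E⁄Qb).Point) = 0 := by
    intro x
    have := x.2
    rw [Submodule.mem_torsionBy_iff] at this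
    rw [← natCast_zsmul]
    exact this
  have hρ : galoisRepModuleEnd (K := Qb) ℚ E p σ = galoisRepModuleEnd (K := Qb) ℚ E p τ := by
    refine LinearMap.ext fun x => Subtype.ext ?_
    exact (hpt x (hmem x)).symm
  -- the cyclotomic character
  have hζ : τ (zetaBar p) = σ (zetaBar p) :=
    hτσ _ (le_sup_right (a := L) (zetaBar_mem_cycloLevel p))
  have hχτ : chiBar p τ = (ℓ : ZMod p) :=
    coe_cycloPow_of_apply_eq_pow p τ ℓ
      (IsFrobeniusAt_apply_root hτ hp.ne_zero (val_prime_eq_one hA hℓ hp hℓp)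
        (zetaBar_spec p).pow_eq_one)
  have hχσ : chiBar p σ = chiBar p τ := by
    have : cycloPow p σ = cycloPow p τ :=
      (cycloPow_eq_iff p σ (cycloPow p τ)).mpr (by rw [← hζ]; exact cycloPow_spec p τ)
    rw [chiBar_apply, chiBar_apply, this]
  rw [hρ, hχσ, hχτ]
  -- the Frobenius relation
  obtain ⟨m, hm⟩ := hEis ℓ hℓ hℓS hgood
  refine LinearMap.ext fun x => Subtype.ext ?_
  have hrel := frobRelation_of_isIntegralModelOf E W hW ℓ hℓ h5 hgood A τ hA hτ p hp.pos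
    (fun h => hℓp ((Nat.prime_dvd_prime_iff_eq hℓ hp).mp h)) (x : (E⁄Qb).Point) (hmem x)
  have ha : W.apOfModel ℓ = (ℓ : ℤ) + 1 + m * (p : ℤ) := by linear_combination hm
  have hτx : (p : ℤ) • (τ • (x : (E⁄Qb).Point)) = 0 := by
    rw [← algEquiv_smul_zsmul, natCast_zsmul, hmem x, smul_zero]
  rw [ha, add_zsmul, add_zsmul, one_zsmul, mul_zsmul, hτx, zsmul_zero, add_zero] at hrel
  simp only [Module.End.mul_apply, LinearMap.sub_apply, LinearMap.smul_apply,
    Module.End.one_apply, galoisRepModuleEnd_apply, LinearMap.zero_apply, map_sub,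
    Nat.cast_smul_eq_nsmul]
  show τ • τ • (x : (E⁄Qb).Point) - τ • (x : (E⁄Qb).Point)
    - (τ • (ℓ • (x : (E⁄Qb).Point)) - ℓ • (x : (E⁄Qb).Point)) = 0
  rw [← natCast_zsmul, algEquiv_smul_zsmul, ← hrel]
  abel

end relation

/-- **Non-Eisenstein, general form.**  Let `E` be an elliptic curve over `ℚ` with integral model
`W` and `p` a prime such that `E[p]` is irreducible.  Outside every finite set `S` there is a
prime `ℓ` of good reduction of `W` with `a_ℓ(W) ≢ ℓ + 1 mod p`. -/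
theorem exists_prime_not_eisenstein (E : WeierstrassCurve ℚ) (hE : E.Δ ≠ 0)
    (W : WeierstrassCurve ℤ) (hW : W.IsIntegralModelOf E) (p : ℕ) (hp : p.Prime)
    (hirr : GaloisRepIsIrreducible (K := AlgebraicClosure ℚ) ℚ E p) (S : Finset ℕ) :
    ∃ ℓ : ℕ, ℓ.Prime ∧ ℓ ∉ S ∧ W.IsGoodPrimeFor ℓ ∧ ¬ (p : ℤ) ∣ W.apOfModel ℓ - (ℓ + 1) := by
  by_contra hcon0
  have hcon : ∀ ℓ : ℕ, ℓ.Prime → ℓ ∉ S → W.IsGoodPrimeFor ℓ →
      (p : ℤ) ∣ W.apOfModel ℓ - (ℓ + 1) := by
    intro ℓ h1 h2 h3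
    by_contra h4
    exact hcon0 ⟨ℓ, h1, h2, h3, h4⟩
  have : Fact p.Prime := ⟨hp⟩
  have hEll : (E⁄Qb).IsElliptic := by
    constructor
    rw [isUnit_iff_ne_zero]
    show (E.map (algebraMap ℚ Qb)).Δ ≠ 0
    rw [WeierstrassCurve.map_Δ]
    exact (_root_.map_ne_zero _).mpr hE
  have hWΔ : W.Δ ≠ 0 := Δ_ne_zero_of_isIntegralModelOf hE hW
  -- `E[p]` is two-dimensional
  have hcard : Nat.card (Submodule.torsionBy ℤ (E⁄Qb).Point p) = p ^ 2 :=
    Fermat.Agent.S59.H127.card_torsion_eq (E⁄Qb) p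
  have hfinite : Finite (Submodule.torsionBy ℤ (E⁄Qb).Point p) :=
    Nat.finite_of_card_ne_zero (by rw [hcard]; exact pow_ne_zero 2 hp.ne_zero)
  have hfinrank : Module.finrank (ZMod p) (Submodule.torsionBy ℤ (E⁄Qb).Point p) = 2 := by
    have h2 : Nat.card (Submodule.torsionBy ℤ (E⁄Qb).Point p)
        = Nat.card (ZMod p) ^ Module.finrank (ZMod p) (Submodule.torsionBy ℤ (E⁄Qb).Point p) :=
      Module.natCard_eq_pow_finrank
    rw [Nat.card_zmod, hcard] at h2
    exact (Nat.pow_right_injective hp.two_le h2).symm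
  obtain ⟨N, hN0, hN1, hstab⟩ := exists_stable_line_of_character hfinrank
    (galoisRepModuleEnd (K := Qb) ℚ E p) (chiBar p)
    (sub_one_mul_sub_chiBar_eq_zero E p W hW hWΔ S hcon)
  rcases hirr.2 N (fun σ x hx => hstab σ x hx) with h | h
  · exact hN0 h
  · exact hN1 h

/-- The discriminant of the Frey curve is nonzero. -/
theorem freyCurve_Δ_ne_zero_h523 (P : FreyPackage) : P.freyCurve.Δ ≠ 0 := by
  have h : ((P.c : ℚ)) ^ P.p = (P.a : ℚ) ^ P.p + (P.b : ℚ) ^ P.p := by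
    exact_mod_cast P.hFLT.symm
  have hΔ : P.freyCurve.Δ = ((P.a : ℚ) * P.b * P.c) ^ (2 * P.p) / 2 ^ 8 := by
    simp only [WeierstrassCurve.Δ, WeierstrassCurve.b₂, WeierstrassCurve.b₄, WeierstrassCurve.b₆,
      WeierstrassCurve.b₈, FreyPackage.freyCurve]
    rw [mul_pow, mul_pow, pow_mul', pow_mul', pow_mul', h]
    ring
  rw [hΔ]
  have : ((P.a : ℚ) * P.b * P.c) ≠ 0 := by exact_mod_cast P.habc0
  exact div_ne_zero (pow_ne_zero _ this) (by norm_num)

/-- **Piece NE of row RIBET** (unconditional). -/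
theorem nonEisenstein : Spec.NonEisensteinStatement := by
  intro P W hW hirr S
  exact exists_prime_not_eisenstein P.freyCurve (freyCurve_Δ_ne_zero_h523 P) W hW P.p P.pp hirr S

end Fermat.Agent.Ribet.H523
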