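import Fermat.Agent.Ribet.H523.Q3Spec
import Fermat.Agent.Ribet.H944.Closed
import Fermat.Agent.Ribet.H376.I2Leaves
import Fermat.Agent.Ribet.H997.RedBasic
import Fermat.Agent.Ribet.H939.ResField
import Fermat.Agent.Ribet.H398.HeckeFun
import Fermat.Agent.Ribet.H884.SlopeS1
import Fermat.Agent.S18.H144.ConstFk
import Fermat.Agent.S37.H868.FullC
import Fermat.Agent.S37.Core.Inst

/-!
# Row 37, WALL-q, (Q3) RED: the assembly of EIGEN-LIFT at good levels  (helper523)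

`eigenLiftGood_of : GRSurj → KumRed → KronField → EigenLiftGoodStatement`, and the strong form
`eigenLiftGood_strong` (the lifted class has a Kummer generator whose reduction is `c·h·u^p`),
which is the input of the corner case `q = 3`, `M'` odd.

On main and used here: `S37.Core.rimStatement` (place reduction at good levels),
`S18.result` (injectivity on torsion), `H398.isKummerGen_heckeNorm`,
`H376.isRedInf_heckeNorm'`, `H997.redExists`, `H939.resField`,
`S18.H144.constOfOrdZero_fullC`, `S37.H868.hpd_fullC`.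
-/

set_option autoImplicit false
set_option linter.style.haveILetI false
set_option linter.unusedSectionVars false
set_option synthInstance.maxHeartbeats 400000
set_option maxHeartbeats 1000000

noncomputable section

namespace Fermat.Agent.Ribet.H523.Q3

open AlgebraicCurve ModularCurve HahnSeries
open Fermat.Agent.S24 Fermat.Agent.A2.H708 Fermat.Agent.A2.H528
open Fermat.Agent.Ribet.Spec Fermat.Agent.Ribet.H944.Wall Fermat.Agent.Ribet.H884
open Fermat.Agent.Ribet.H158.WallQ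
open Fermat.Agent.Ribet.H944.I2
open Fermat.Agent.S37.H400

/-! ## Kummer functions and classes in an abstract function field -/

section Abstract

variable {K F : Type*} [Field K] [Field F] [Algebra K F]

/-- A function all of whose orders are divisible by `p` has a divisor of the form `p · E`,
`deg E = 0`. -/
theorem exists_degZero_of_dvd_ord [HasPrincipalDivisors K F] {p : ℕ} (hp : p ≠ 0) {h : F}
    (h0 : h ≠ 0) (hdiv : ∀ Q : Place K F, (p : ℤ) ∣ Q.ord h) :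
    ∃ E : Divisor.degZero (K := K) (F := F),
      ∀ Q : Place K F, Q.ord h = (p : ℤ) * (E : Divisor K F) Q := by
  obtain ⟨D, hD, hdeg⟩ := HasPrincipalDivisors.exists_divisor (K := K) h h0
  let E₀ : Divisor K F := D.mapRange (fun n => n / (p : ℤ)) (by simp)
  have hE : ∀ Q, (p : ℤ) * E₀ Q = D Q := fun Q => by
    show (p : ℤ) * (D.mapRange (fun n => n / (p : ℤ)) (by simp)) Q = D Q
    rw [Finsupp.mapRange_apply]
    exact Int.mul_ediv_cancel' (by rw [hD Q]; exact hdiv Q)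
  have hpE : (p : ℤ) • E₀ = D := by
    ext Q
    rw [Finsupp.smul_apply, smul_eq_mul, hE]
  have hdeg0 : Divisor.degree E₀ = 0 := by
    have h1 := congrArg Divisor.degree hpE
    rw [map_zsmul, hdeg, smul_eq_mul] at h1
    rcases mul_eq_zero.mp h1 with h2 | h2
    · exact absurd (by exact_mod_cast h2) hp
    · exact h2
  refine ⟨⟨E₀, hdeg0⟩, fun Q => ?_⟩
  show Q.ord h = (p : ℤ) * E₀ Q
  rw [hE Q, hD Q]

/-- Two Kummer functions of the same class differ by a constant and a `p`-th power. -/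
theorem exists_const_mul_pow
    (hconst : ∀ u : F, u ≠ 0 → (∀ v : Place K F, v.ord u = 0) → ∃ c : K, u = algebraMap K F c)
    {p : ℕ} {h₁ h₂ : F} (h1 : h₁ ≠ 0) (h2 : h₂ ≠ 0)
    {E₁ E₂ : Divisor.degZero (K := K) (F := F)}
    (hE1 : ∀ Q : Place K F, Q.ord h₁ = (p : ℤ) * (E₁ : Divisor K F) Q)
    (hE2 : ∀ Q : Place K F, Q.ord h₂ = (p : ℤ) * (E₂ : Divisor K F) Q)
    (hcl : Pic0.mk E₁ = Pic0.mk E₂) :
    ∃ (c : K) (u : F), c ≠ 0 ∧ u ≠ 0 ∧ h₁ = algebraMap K F c * h₂ * u ^ p := by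
  have hmem : (-E₁ + E₂ : Divisor.degZero (K := K) (F := F)) ∈
      (Divisor.principal (K := K) (F := F)).addSubgroupOf
        (Divisor.degZero (K := K) (F := F)) := QuotientAddGroup.eq.mp hcl
  rw [AddSubgroup.mem_addSubgroupOf] at hmem
  obtain ⟨t, ht0, ht⟩ := hmem
  have ht' : ∀ Q : Place K F, Q.ord t = -(E₁ : Divisor K F) Q + (E₂ : Divisor K F) Q :=
    fun Q => by
      rw [← ht Q]
      simp
  have hw0 : h₁ * (h₂ * (t⁻¹) ^ p)⁻¹ ≠ 0 :=
    mul_ne_zero h1 (inv_ne_zero (mul_ne_zero h2 (pow_ne_zero _ (inv_ne_zero ht0))))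
  obtain ⟨c, hc⟩ := hconst _ hw0 (fun Q => by
    rw [Q.ord_mul h1 (inv_ne_zero (mul_ne_zero h2 (pow_ne_zero _ (inv_ne_zero ht0)))),
      Q.ord_inv, Q.ord_mul h2 (pow_ne_zero _ (inv_ne_zero ht0)),
      Fermat.Agent.Lib.RR.ord_pow, Q.ord_inv, hE1, hE2, ht']
    ring)
  refine ⟨c, t⁻¹, ?_, inv_ne_zero ht0, ?_⟩
  · rintro rfl
    rw [map_zero] at hc
    exact hw0 hc
  · rw [← hc]
    field_simp

/-- A Kummer function of the zero class is a constant times a `p`-th power. -/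
theorem exists_const_mul_pow_of_mk_eq_zero [HasPrincipalDivisors K F]
    (hconst : ∀ u : F, u ≠ 0 → (∀ v : Place K F, v.ord u = 0) → ∃ c : K, u = algebraMap K F c)
    {p : ℕ} {h : F} (h0 : h ≠ 0) {E : Divisor.degZero (K := K) (F := F)}
    (hE : ∀ Q : Place K F, Q.ord h = (p : ℤ) * (E : Divisor K F) Q)
    (hcl : Pic0.mk E = 0) :
    ∃ (c : K) (u : F), c ≠ 0 ∧ u ≠ 0 ∧ h = algebraMap K F c * u ^ p := by
  obtain ⟨c, u, hc, hu, he⟩ := exists_const_mul_pow hconst (p := p) h0 (one_ne_zero (α := F))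
    (E₁ := E) (E₂ := 0) hE (fun Q => by rw [Place.ord_one]; simp) (by rw [hcl]; rfl)
  exact ⟨c, u, hc, hu, by rw [he, mul_one]⟩

/-- The class of a constant times a `p`-th power is zero. -/
theorem mk_eq_zero_of_const_mul_pow {p : ℕ} (hp : p ≠ 0) {h : F} {c : K} {u : F}
    (hu : u ≠ 0) (he : h = algebraMap K F c * u ^ p)
    {E : Divisor.degZero (K := K) (F := F)}
    (hE : ∀ Q : Place K F, Q.ord h = (p : ℤ) * (E : Divisor K F) Q) (hc : c ≠ 0) :
    Pic0.mk E = 0 := by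
  have hcF : algebraMap K F c ≠ 0 := fun h0 => hc (by simpa using h0)
  have hEu : ∀ Q : Place K F, (E : Divisor K F) Q = Q.ord u := fun Q => by
    have h1 := hE Q
    rw [he, Q.ord_mul hcF (pow_ne_zero _ hu), Fermat.Agent.Lib.RR.ord_algebraMap,
      Fermat.Agent.Lib.RR.ord_pow, zero_add] at h1
    exact (mul_left_cancel₀ (by exact_mod_cast hp : (p : ℤ) ≠ 0) h1).symm
  show (QuotientAddGroup.mk E : Pic0 K F) = 0
  refine (QuotientAddGroup.eq_zero_iff E).mpr ?_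
  rw [AddSubgroup.mem_addSubgroupOf]
  exact ⟨u, hu, hEu⟩

end Abstract

/-! ## Kummer generators: integer powers -/

section KummerPow

variable (N : ℕ) [NeZero N] (p : ℕ)

theorem isKummerGen_pow' {f : FF N} {x : JZero N} (hf : IsKummerGen N p f x) (n : ℕ) :
    IsKummerGen N p (f ^ n) (n • x) := by
  induction n with
  | zero => simpa using isKummerGen_one N p
  | succ n ih =>
    rw [pow_succ, succ_nsmul]
    exact isKummerGen_mul N p ih hf

theorem isKummerGen_zpow' {f : FF N} {x : JZero N} (hf : IsKummerGen N p f x) (a : ℤ) :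
    IsKummerGen N p (f ^ a) (a • x) := by
  rcases a with n | n
  · simpa using isKummerGen_pow' N p hf n
  · rw [zpow_negSucc, negSucc_zsmul]
    exact isKummerGen_inv N p (isKummerGen_pow' N p hf (n + 1))

end KummerPow

/-! ## The assembly -/

theorem goodLevel_of {q M' : ℕ} (hq : q.Prime) (hq2 : q ≠ 2) (hgood : 5 ≤ q ∨ 2 ∣ M') :
    Fermat.Agent.S37.Core.GoodLevel M' q := by
  by_cases h5 : 5 ≤ q
  · exact Or.inl h5
  · rcases hgood with h | h
    · exact absurd h h5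
    · have h2 := hq.two_le
      have hlt : q < 5 := Nat.lt_of_not_le h5
      interval_cases q
      · exact absurd rfl hq2
      · exact Or.inr (Or.inl ⟨rfl, h⟩)
      · exact absurd hq (by decide)

/-- **EIGEN-LIFT at good levels, strong form.** -/
theorem eigenLiftGood_strong (hSurj : GRSurjStatement) (hKR : KumRedStatement)
    (hKF : KronFieldStatement)
    (p q M' : ℕ) [NeZero M'] (hp : p.Prime) (hq : q.Prime) (hq2 : q ≠ 2) (hqp : q ≠ p)
    (hqM : ¬ q ∣ M') (hgood : 5 ≤ q ∨ 2 ∣ M')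
    (A : ValuationSubring Kbar) (hA : A.LiesOverPrime q)
    (S : Finset ℕ) (a : ℕ → ℤ) (h : modularFunctionFieldFullC (kA A) M')
    (hh : IsRedEigen p M' S a h) :
    ∃ (z : JZero M') (f : FF M') (r : LaurentSeries (kA A)) (c : kA A)
      (u : modularFunctionFieldFullC (kA A) M'),
      z ≠ 0 ∧ p • z = 0 ∧ IsKummerGen M' p f z ∧ IsRedInf M' A f r ∧ c ≠ 0 ∧ u ≠ 0 ∧
      r = HahnSeries.C c * (h : LaurentSeries (kA A)) * (u : LaurentSeries (kA A)) ^ p ∧
      ∀ ℓ : Nat.Primes, (ℓ : ℕ) ∉ S ∪ (q * M' * p).primeFactors →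
        heckeOperatorBar M' ℓ z = a ℓ • z := by
  classical
  obtain ⟨hac, hch⟩ := Fermat.Agent.Ribet.H939.resField q hq A hA
  haveI := hac
  haveI := hch
  haveI : Fact q.Prime := ⟨hq⟩
  have hchar : ∀ p' : ℕ, p'.Prime → p' ∣ M' → (p' : kA A) ≠ 0 := by
    intro p' hp' hd h0
    have h1 : q ∣ p' := (CharP.cast_eq_zero_iff (kA A) q p').mp h0
    have h2 : q = p' := (Nat.prime_dvd_prime_iff_eq hq hp').mp h1
    exact hqM (h2 ▸ hd)
  haveI hpd : HasPrincipalDivisors (kA A) (modularFunctionFieldFullC (kA A) M') :=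
    Fermat.Agent.S37.H868.hpd_fullC (kA A) M' hchar
  have hconst := Fermat.Agent.S18.H144.constOfOrdZero_fullC (kA A) M' hchar
  have hRI : ReductionInputsModL A M' :=
    Fermat.Agent.S37.Core.rimStatement M' q hq hqM (goodLevel_of hq hq2 hgood) A hA
  obtain ⟨h0, hdiv, hnpp, heig⟩ := hh
  obtain ⟨Eh, hEh⟩ := exists_degZero_of_dvd_ord (K := kA A) hp.ne_zero h0 hdiv
  -- the class `y` of `h`
  have hpy : p • (Pic0.mk Eh : JZeroC (kA A) M') = 0 := by
    have e : p • (Pic0.mk Eh : JZeroC (kA A) M') = Pic0.mk (p • Eh) := rfl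
    rw [e]
    show (QuotientAddGroup.mk (p • Eh) : Pic0 (kA A) (modularFunctionFieldFullC (kA A) M')) = 0
    refine (QuotientAddGroup.eq_zero_iff (p • Eh)).mpr ?_
    rw [AddSubgroup.mem_addSubgroupOf]
    refine ⟨h, h0, fun Q => ?_⟩
    rw [hEh Q]
    simp
  have hy0 : (Pic0.mk Eh : JZeroC (kA A) M') ≠ 0 := by
    intro hy
    obtain ⟨c, u, hc, hu, he⟩ := exists_const_mul_pow_of_mk_eq_zero hconst h0 hEh hy
    apply hnpp
    refine ⟨c, u, hc, hu, ?_⟩
    rw [he]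
    show ((algebraMap (kA A) (modularFunctionFieldFullC (kA A) M') c : _) : LaurentSeries (kA A))
      * ((u : LaurentSeries (kA A))) ^ p = _
    rw [show ((algebraMap (kA A) (modularFunctionFieldFullC (kA A) M') c : _) :
      LaurentSeries (kA A)) = HahnSeries.C c from Fermat.Agent.S18.H602.algebraMap_eq_C c]
  obtain ⟨z, hpz, hzy⟩ := hSurj p q M' hp hq hq2 hqp hqM hgood A hA _ hpy
  have hz0 : z ≠ 0 := by
    rintro rfl
    rw [map_zero] at hzy
    exact hy0 hzy.symm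
  obtain ⟨f, hfK⟩ := exists_isKummerGen (N := M') p z hpz
  obtain ⟨r, hr⟩ := (Fermat.Agent.Ribet.H997.redExists q M' hq A hA f hfK.1).1
  have hr0 : r ≠ 0 := (isRedInf_ne_zero M' A hr).2
  obtain ⟨g, E, hgr, hE, hord⟩ := hKR q M' p hq hqM A hA hRI z f r hfK hr
  have hg0 : g ≠ 0 := fun e => hr0 (by rw [← hgr, e]; rfl)
  obtain ⟨c, u, hc, hu, hgeq⟩ :=
    exists_const_mul_pow hconst hg0 h0 hord hEh (hE.trans hzy)
  have hcst : ∀ d : kA A, ((algebraMap (kA A) (modularFunctionFieldFullC (kA A) M') d : _) :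
      LaurentSeries (kA A)) = HahnSeries.C d := fun d =>
    Fermat.Agent.S18.H602.algebraMap_eq_C d
  have hrser : r = HahnSeries.C c * (h : LaurentSeries (kA A)) *
      (u : LaurentSeries (kA A)) ^ p := by
    rw [← hgr, hgeq]
    show ((algebraMap (kA A) (modularFunctionFieldFullC (kA A) M') c : _) :
      LaurentSeries (kA A)) * (h : LaurentSeries (kA A)) * (u : LaurentSeries (kA A)) ^ p = _
    rw [hcst]
  refine ⟨z, f, r, c, u, hz0, hpz, hfK, hr, hc, hu, hrser, ?_⟩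
  -- the eigen-relation, by injectivity of the reduction on `p`-torsion
  intro ℓ hℓS'
  have hℓS : (ℓ : ℕ) ∉ S := fun e => hℓS' (Finset.mem_union_left _ e)
  have hqMp0 : q * M' * p ≠ 0 :=
    Nat.mul_ne_zero (Nat.mul_ne_zero hq.ne_zero (NeZero.ne M')) hp.ne_zero
  have hℓN : ¬ (ℓ : ℕ) ∣ q * M' * p := fun hd =>
    hℓS' (Finset.mem_union_right _ (Nat.mem_primeFactors.mpr ⟨ℓ.2, hd, hqMp0⟩))
  have hℓM : ¬ (ℓ : ℕ) ∣ M' := fun hd =>
    hℓN (Dvd.dvd.mul_right (Dvd.dvd.mul_left hd q) p)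
  have hℓq : (ℓ : ℕ) ≠ q := fun e =>
    hℓN (Dvd.dvd.mul_right (Dvd.dvd.mul_right (e ▸ dvd_refl _) M') p)
  haveI : NeZero (ℓ : ℕ) := ⟨ℓ.2.ne_zero⟩
  obtain ⟨cℓ, G, hcℓ, hG, hKE⟩ := heig ℓ ℓ.2 hℓS
  obtain ⟨v, hv⟩ := hKF q M' hq hqM A hA ℓ ℓ.2 hℓM hℓq u
  have hpw : p • (heckeOperatorBar M' ℓ z - a ℓ • z) = 0 := by
    have e1 : p • (heckeOperatorBar M' ℓ z) = 0 := by
      rw [← map_nsmul, hpz, map_zero]
    have e2 : p • (a ℓ • z) = 0 := by
      rw [smul_comm, hpz, smul_zero]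
    rw [nsmul_sub, e1, e2, sub_zero]
  -- a Kummer generator of `w = T_ℓ z - a_ℓ z` and its reduction
  have hK1 : IsKummerGen M' p (Fermat.Agent.S29.H395.heckeNorm M' ℓ f)
      (heckeOperatorBar M' ℓ z) :=
    Fermat.Agent.Ribet.H398.isKummerGen_heckeNorm M' ℓ p f z hfK
  have hKw : IsKummerGen M' p
      (Fermat.Agent.S29.H395.heckeNorm M' ℓ f * (f ^ (a ℓ))⁻¹)
      (heckeOperatorBar M' ℓ z - a ℓ • z) := by
    rw [sub_eq_add_neg]
    exact isKummerGen_mul M' p hK1 (isKummerGen_inv M' p (isKummerGen_zpow' M' p hfK (a ℓ)))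
  have hR1 : IsRedInf M' A (Fermat.Agent.S29.H395.heckeNorm M' ℓ f) (kronNorm ℓ r) :=
    Fermat.Agent.Ribet.H376.isRedInf_heckeNorm' M' ℓ ℓ.2 hℓM A hr
  have hRw : IsRedInf M' A (Fermat.Agent.S29.H395.heckeNorm M' ℓ f * (f ^ (a ℓ))⁻¹)
      (kronNorm ℓ r * (r ^ (a ℓ))⁻¹) :=
    isRedInf_mul M' A hR1 (isRedInf_inv M' A (isRedInf_zpow M' A hr (a ℓ)))
  obtain ⟨gw, Ew, hgw, hEw, hordw⟩ := hKR q M' p hq hqM A hA hRI _ _ _ hKw hRw
  -- the reduction is a constant times a `p`-th power in `F_k`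
  have hh0 : (h : LaurentSeries (kA A)) ≠ 0 := fun e => h0 (Subtype.ext e)
  have hu0 : (u : LaurentSeries (kA A)) ≠ 0 := fun e => hu (Subtype.ext e)
  have hua0 : u ^ (a ℓ) ≠ 0 := zpow_ne_zero _ hu
  have hcalc : gw = algebraMap (kA A) (modularFunctionFieldFullC (kA A) M')
      (c ^ ((ℓ : ℕ) + 1) * cℓ * (c ^ (a ℓ))⁻¹) * (G * v * (u ^ (a ℓ))⁻¹) ^ p := by
    apply Subtype.ext
    rw [hgw]
    show kronNorm ℓ r * (r ^ (a ℓ))⁻¹ =
      ((algebraMap (kA A) (modularFunctionFieldFullC (kA A) M')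
        (c ^ ((ℓ : ℕ) + 1) * cℓ * (c ^ (a ℓ))⁻¹) : _) : LaurentSeries (kA A)) *
      ((G : LaurentSeries (kA A)) * (v : LaurentSeries (kA A)) *
        ((u : LaurentSeries (kA A)) ^ (a ℓ))⁻¹) ^ p
    rw [hcst, hv, hrser, kronNorm_mul, kronNorm_mul, kronNorm_pow,
      Fermat.Agent.Ribet.H376.kronNorm_C, hKE]
    have hCc : (HahnSeries.C c : LaurentSeries (kA A)) ≠ 0 :=
      (map_ne_zero (HahnSeries.C : kA A →+* LaurentSeries (kA A))).mpr hc
    have e1 : (HahnSeries.C c * (h : LaurentSeries (kA A)) *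
        (u : LaurentSeries (kA A)) ^ p) ^ (a ℓ) =
        HahnSeries.C (c ^ (a ℓ)) * (h : LaurentSeries (kA A)) ^ (a ℓ) *
          ((u : LaurentSeries (kA A)) ^ (a ℓ)) ^ p := by
      rw [mul_zpow, mul_zpow, ← map_zpow₀ (HahnSeries.C : kA A →+* LaurentSeries (kA A)),
        ← zpow_natCast ((u : LaurentSeries (kA A))) p, ← zpow_mul,
        ← zpow_natCast ((u : LaurentSeries (kA A)) ^ (a ℓ)) p, ← zpow_mul, mul_comm (p : ℤ)]
    rw [e1]
    have hha0 : (h : LaurentSeries (kA A)) ^ (a ℓ) ≠ 0 := zpow_ne_zero _ hh0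
    have hua0' : (u : LaurentSeries (kA A)) ^ (a ℓ) ≠ 0 := zpow_ne_zero _ hu0
    have hca0 : (HahnSeries.C (c ^ (a ℓ)) : LaurentSeries (kA A)) ≠ 0 :=
      (map_ne_zero (HahnSeries.C : kA A →+* LaurentSeries (kA A))).mpr (zpow_ne_zero (a ℓ) hc)
    have hcl0 : (HahnSeries.C (c ^ ((ℓ : ℕ) + 1)) : LaurentSeries (kA A)) ≠ 0 :=
      (map_ne_zero (HahnSeries.C : kA A →+* LaurentSeries (kA A))).mpr (pow_ne_zero _ hc)
    have huap0 : ((u : LaurentSeries (kA A)) ^ (a ℓ)) ^ p ≠ 0 := pow_ne_zero _ hua0'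
    rw [map_mul, map_mul, map_inv₀, mul_pow, mul_pow, inv_pow]
    generalize (HahnSeries.C (c ^ ((ℓ : ℕ) + 1)) : LaurentSeries (kA A)) = X1 at hcl0 ⊢
    generalize (HahnSeries.C (c ^ (a ℓ)) : LaurentSeries (kA A)) = X2 at hca0 ⊢
    generalize (HahnSeries.C cℓ : LaurentSeries (kA A)) = X3
    generalize ((u : LaurentSeries (kA A)) ^ (a ℓ)) ^ p = X4 at huap0 ⊢
    generalize (h : LaurentSeries (kA A)) ^ (a ℓ) = X5 at hha0 ⊢
    generalize (G : LaurentSeries (kA A)) ^ p = X6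
    generalize (kronNorm (ℓ : ℕ) (u : LaurentSeries (kA A))) ^ p = X7
    field_simp
  have hgw_cst : c ^ ((ℓ : ℕ) + 1) * cℓ * (c ^ (a ℓ))⁻¹ ≠ 0 :=
    mul_ne_zero (mul_ne_zero (pow_ne_zero _ hc) hcℓ) (inv_ne_zero (zpow_ne_zero _ hc))
  have hv0 : v ≠ 0 := by
    intro e
    have h1 : kronNorm ℓ (u : LaurentSeries (kA A)) = 0 := by rw [← hv, e]; rfl
    exact Fermat.Agent.Ribet.H376.kronNorm_ne_zero_of_field ℓ.2 hu0 h1
  have hzero : (Pic0.mk Ew : JZeroC (kA A) M') = 0 :=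
    mk_eq_zero_of_const_mul_pow (K := kA A) hp.ne_zero
      (mul_ne_zero (mul_ne_zero hG hv0) (inv_ne_zero hua0)) hcalc hordw hgw_cst
  have hred0 : reductionModL A M' (heckeOperatorBar M' ℓ z - a ℓ • z) = 0 := by
    rw [← hEw, hzero]
  have hqp' : ¬ q ∣ p := fun hd => hqp ((Nat.prime_dvd_prime_iff_eq hq hp).mp hd)
  have hw := Fermat.Agent.S18.result M' hqM A hA hRI p hqp' _ hpw hred0
  exact sub_eq_zero.mp hw

/-- **EIGEN-LIFT at good levels** from GR-SURJ, KUM-RED and KRON-FIELD. -/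
theorem eigenLiftGood_of (hSurj : GRSurjStatement) (hKR : KumRedStatement)
    (hKF : KronFieldStatement) : EigenLiftGoodStatement := by
  intro p q M' _ hp _ hq hq2 hqp hqM hgood A hA S a h hh
  obtain ⟨z, f, r, c, u, hz0, hpz, -, -, -, -, -, heig⟩ :=
    eigenLiftGood_strong hSurj hKR hKF p q M' hp hq hq2 hqp hqM hgood A hA S a h hh
  exact ⟨S ∪ (q * M' * p).primeFactors, Finset.subset_union_left, z, hz0, hpz, heig⟩

end Fermat.Agent.Ribet.H523.Q3

end
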