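import Fermat.Agent.Ribet.H158.WallQSlope
import Fermat.Agent.Ribet.H944.I2Spec
import Fermat.Agent.S37.H400.KronNorm

/-!
# Row 37, WALL-q, leaf (Q3) RED: frozen sub-leaves + PROVED glue   (sub-architect helper523)

Target: `H158.WallQ.Q3Statement` (a new eigenclass `x ∈ 𝓕 ∖ 𝒮` of `J₀(qM')[p]`, `q ≠ p`, has its
eigensystem at level `M'`).  `k = kA A` (residue field of `A`, `A` over `q`),
`F_k = modularFunctionFieldFullC k M'` (function field of `X₀(M')_k`).

## Route (no `dlog`: the characteristic is `q ≠ p`)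
1. **RED-CLASS** (`RedEigenQStatement`): `x` has a Kummer generator `f` (level `qM'`) whose two
   reductions lie in `F_k` with `p ∣ ord_Q` everywhere, and ONE of them, `h`, is not `c·g^p`.
   `T_ℓ x = a_ℓ x` gives `Nm_α(β f) = c f^{a_ℓ} G^p` (KUMEIG), hence after reduction
   `kronNorm ℓ h = c̄ · h^{a_ℓ} · Ḡ^p` with `Ḡ ∈ F_k` (HECKE-RED + REDFIELD + REDUNIQ; Fricke for
   the `0`-component).  Output: `IsRedEigen p M' S' a h`.
2. **EIGEN-LIFT** (`EigenLiftStatement`): from such an `h` to `OccursIn M' p S'' a`: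
   `y := [div h / p] ∈ Pic⁰(F_k)[p]` is nonzero; lift it to `z ∈ J₀(M')[p]` (GR-SURJ); then
   `T_ℓ z - a_ℓ z` is `p`-torsion with reduction `0` (KUM-RED + HECKE-FUN + KRON-FIELD + CONST),
   hence `0` (S18).
   * good levels (`5 ≤ q` or `2 ∣ M'`): `EigenLiftGoodStatement`, from the leaves
     `GRSurjStatement`, `KumRedStatement`, `KronFieldStatement` (assembly: `Q3Lift.lean`);
   * `q = 3`, `M'` odd: `EigenLiftThreeStatement` (through level `2M'`, see the board).

## Proved here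
`q3_of : RedEigenQ → EigenLift → H158.WallQ.Q3Statement`,
`eigenLift_of_cases : EigenLiftGood → EigenLiftThree → EigenLift`.
-/

set_option autoImplicit false
set_option synthInstance.maxHeartbeats 400000
set_option maxHeartbeats 1000000

noncomputable section

namespace Fermat.Agent.Ribet.H523.Q3

open AlgebraicCurve ModularCurve HahnSeries
open Fermat.Agent.S24 Fermat.Agent.A2.H708 Fermat.Agent.A2.H528
open Fermat.Agent.Ribet.Spec Fermat.Agent.Ribet.H944.Wall Fermat.Agent.Ribet.H884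
open Fermat.Agent.Ribet.H158.WallQ
open Fermat.Agent.S37.H400

/-! ## Vocabulary -/

/-- The function-level eigen-relation in characteristic `q ≠ p`:
`kronNorm ℓ h = c · h ^ a · G ^ p` with `c ∈ kˣ`, `G ∈ F_kˣ`. -/
def KronEigen (p M' : ℕ) {k : Type} [Field k] (ℓ : ℕ) [NeZero ℓ] (a : ℤ)
    (h : modularFunctionFieldFullC k M') : Prop :=
  ∃ (c : k) (G : modularFunctionFieldFullC k M'), c ≠ 0 ∧ G ≠ 0 ∧
    kronNorm ℓ (h : LaurentSeries k) =
      HahnSeries.C c * (h : LaurentSeries k) ^ a * (G : LaurentSeries k) ^ p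

/-- `h ∈ F_k` is a Kummer function of a nonzero `p`-torsion eigenclass of `Pic⁰(F_k)`:
`p ∣ div h`, `h` is not a constant times a `p`-th power, and `h` satisfies the eigen-relations
with eigenvalues `a ℓ` for the primes `ℓ ∉ S`. -/
def IsRedEigen (p M' : ℕ) {k : Type} [Field k] (S : Finset ℕ) (a : ℕ → ℤ)
    (h : modularFunctionFieldFullC k M') : Prop :=
  h ≠ 0 ∧ (∀ Q : Place k (modularFunctionFieldFullC k M'), (p : ℤ) ∣ Q.ord h) ∧
    ¬ PPowSeries p M' (h : LaurentSeries k) ∧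
    ∀ (ℓ : ℕ) [NeZero ℓ], ℓ.Prime → ℓ ∉ S → KronEigen p M' ℓ (a ℓ) h

theorem IsRedEigen.mono {p M' : ℕ} {k : Type} [Field k] {S S' : Finset ℕ} {a : ℕ → ℤ}
    {h : modularFunctionFieldFullC k M'} (hSS' : S ⊆ S') (hh : IsRedEigen p M' S a h) :
    IsRedEigen p M' S' a h :=
  ⟨hh.1, hh.2.1, hh.2.2.1, fun ℓ _ hℓ hℓS => hh.2.2.2 ℓ hℓ (fun hS => hℓS (hSS' hS))⟩

/-! ## Level 1: the two leaves of (Q3) -/

/-- **RED-CLASS.**  A new eigenclass in `𝓕 ∖ 𝒮` produces, on one of the two components, a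
reduction `h ∈ F_k` which is a Kummer function of a nonzero eigenclass of `Pic⁰(F_k)[p]`. -/
def RedEigenQStatement : Prop :=
  ∀ (p q M' : ℕ) [NeZero M'] [NeZero q] [NeZero (q * M')], p.Prime → 5 ≤ p → q.Prime →
    q ≠ 2 → q ≠ p → ¬ q ∣ M' →
    ∀ A : ValuationSubring Kbar, A.LiesOverPrime q →
    ∀ (S : Finset ℕ) (a : ℕ → ℤ), ∀ x ∈ finPartQ p q M' A, x ∉ splitPartQ p q M' A →
      IsNewTorsQ p q M' x → EigenAt (q * M') S a x →
      ∃ (S' : Finset ℕ) (h : modularFunctionFieldFullC (kA A) M'),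
        S ⊆ S' ∧ IsRedEigen p M' S' a h

/-- **EIGEN-LIFT.**  A Kummer function of a nonzero eigenclass of `Pic⁰(X₀(M')_k)[p]`
(`char k = q ∤ M'`, `q ≠ p`) gives a nonzero eigenclass of `J₀(M')(ℚ̄)[p]` with the same
eigenvalues (`p`-torsion lifts to characteristic `0`, Hecke-equivariantly). -/
def EigenLiftStatement : Prop :=
  ∀ (p q M' : ℕ) [NeZero M'], p.Prime → 5 ≤ p → q.Prime → q ≠ 2 → q ≠ p → ¬ q ∣ M' →
    ∀ A : ValuationSubring Kbar, A.LiesOverPrime q →
    ∀ (S : Finset ℕ) (a : ℕ → ℤ) (h : modularFunctionFieldFullC (kA A) M'),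
      IsRedEigen p M' S a h → ∃ S' : Finset ℕ, S ⊆ S' ∧ OccursIn M' p S' a

/-- **(Q3) from RED-CLASS and EIGEN-LIFT.** -/
theorem q3_of (h1 : RedEigenQStatement) (h2 : EigenLiftStatement) : Q3Statement := by
  intro p q M' _ _ _ hp hp5 hq hq2 hqp hqM A hA S a x hx hxS hnew heig
  obtain ⟨S', h, hSS', hh⟩ := h1 p q M' hp hp5 hq hq2 hqp hqM A hA S a x hx hxS hnew heig
  obtain ⟨S'', hS'', hocc⟩ := h2 p q M' hp hp5 hq hq2 hqp hqM A hA S' a h hh
  exact ⟨S'', hSS'.trans hS'', Or.inl hocc⟩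

/-! ## Level 2: EIGEN-LIFT by cases on the level -/

/-- EIGEN-LIFT at the good levels (`5 ≤ q`, or `q = 3` and `2 ∣ M'`): the levels at which the
place reduction `ReductionInputsModL A M'` is on main (`S37.Core.rimStatement`). -/
def EigenLiftGoodStatement : Prop :=
  ∀ (p q M' : ℕ) [NeZero M'], p.Prime → 5 ≤ p → q.Prime → q ≠ 2 → q ≠ p → ¬ q ∣ M' →
    (5 ≤ q ∨ 2 ∣ M') →
    ∀ A : ValuationSubring Kbar, A.LiesOverPrime q →
    ∀ (S : Finset ℕ) (a : ℕ → ℤ) (h : modularFunctionFieldFullC (kA A) M'),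
      IsRedEigen p M' S a h → ∃ S' : Finset ℕ, S ⊆ S' ∧ OccursIn M' p S' a

/-- EIGEN-LIFT for `q = 3` and odd `M'` (no good coordinate at level `M'`: go through level
`2M'` and push down with `α_*`). -/
def EigenLiftThreeStatement : Prop :=
  ∀ (p M' : ℕ) [NeZero M'], p.Prime → 5 ≤ p → ¬ 3 ∣ M' → ¬ 2 ∣ M' →
    ∀ A : ValuationSubring Kbar, A.LiesOverPrime 3 →
    ∀ (S : Finset ℕ) (a : ℕ → ℤ) (h : modularFunctionFieldFullC (kA A) M'),
      IsRedEigen p M' S a h → ∃ S' : Finset ℕ, S ⊆ S' ∧ OccursIn M' p S' a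

theorem eigenLift_of_cases (hG : EigenLiftGoodStatement) (hT : EigenLiftThreeStatement) :
    EigenLiftStatement := by
  intro p q M' _ hp hp5 hq hq2 hqp hqM A hA S a h hh
  by_cases h5 : 5 ≤ q
  · exact hG p q M' hp hp5 hq hq2 hqp hqM (Or.inl h5) A hA S a h hh
  · have hq3 : q = 3 := by
      have h2 := hq.two_le
      have hlt : q < 5 := Nat.lt_of_not_le h5
      interval_cases q
      · exact absurd rfl hq2
      · rfl
      · exact absurd hq (by decide)
    subst hq3
    by_cases h2M : 2 ∣ M'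
    · exact hG p 3 M' hp hp5 hq hq2 hqp hqM (Or.inr h2M) A hA S a h hh
    · exact hT p M' hp hp5 hqM h2M A hA S a h hh

/-! ## Level 3: the leaves of EIGEN-LIFT at good levels -/

/-- **GR-SURJ** (owners helper343 / helper937): at a good level the reduction map is ONTO the
`p`-torsion of `Pic⁰(X₀(M)_k)` (S18 injectivity + the count `#Pic⁰(F_k)[p] = p^{2g}` in
characteristic `q ≠ p` + `g(F_k) = g(F_ℚ̄)`). -/
def GRSurjStatement : Prop :=
  ∀ (p q M : ℕ) [NeZero M], p.Prime → q.Prime → q ≠ 2 → q ≠ p → ¬ q ∣ M → (5 ≤ q ∨ 2 ∣ M) →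
    ∀ A : ValuationSubring Kbar, A.LiesOverPrime q →
    ∀ y : JZeroC (kA A) M, p • y = 0 →
      ∃ z : JZero M, p • z = 0 ∧ reductionModL A M z = y

/-- **KUM-RED**: under `ReductionInputsModL A M`, a Kummer generator reduces to a Kummer function
of the reduced class: if `div f = m·D`, `z = [D]` and `r` is a reduction of `f`, then `r ∈ F_k`
and `div r = m·E` with `[E] = red z`.  (`E = r_* D`; property (R) of the place reduction applied
to integral generators of `div f`, PGI; reductions are unique up to `kˣ`.) -/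
def KumRedStatement : Prop :=
  ∀ (q M m : ℕ) [NeZero M], q.Prime → ¬ q ∣ M →
    ∀ A : ValuationSubring Kbar, A.LiesOverPrime q → ReductionInputsModL A M →
    ∀ (z : JZero M) (f : FF M) (r : LaurentSeries (kA A)),
      IsKummerGen M m f z → IsRedInf M A f r →
      ∃ (g : modularFunctionFieldFullC (kA A) M)
        (E : Divisor.degZero (K := kA A) (F := modularFunctionFieldFullC (kA A) M)),
        (g : LaurentSeries (kA A)) = r ∧ Pic0.mk E = reductionModL A M z ∧
        ∀ Q : Place (kA A) (modularFunctionFieldFullC (kA A) M),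
          Q.ord g = (m : ℤ) * (E : Divisor (kA A) (modularFunctionFieldFullC (kA A) M)) Q

/-- **KRON-FIELD**: the formal Kronecker norm `kronNorm ℓ` (`ℓ ∤ M`, `ℓ ≠ q`) preserves
`F_k = k(X₀(M))`, `k = kA A` of characteristic `q ∤ M`.  (Every `u ∈ F_k` is a quotient of
reductions of `A`-integral functions of level `M`; `kronNorm` commutes with `incl`/`red`
(`coeffMap_kronNorm`), preserves `FF M` (`H884.HeckeFunStatement`), and reductions of functions
of level `M ∣ qM` lie in `F_k` (`H884.RedFieldStatement` at the prime `q`).) -/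
def KronFieldStatement : Prop :=
  ∀ (q M : ℕ) [NeZero M], q.Prime → ¬ q ∣ M →
    ∀ A : ValuationSubring Kbar, A.LiesOverPrime q →
    ∀ (ℓ : ℕ) [NeZero ℓ], ℓ.Prime → ¬ ℓ ∣ M → ℓ ≠ q →
    ∀ u : modularFunctionFieldFullC (kA A) M,
      ∃ v : modularFunctionFieldFullC (kA A) M,
        (v : LaurentSeries (kA A)) = kronNorm ℓ (u : LaurentSeries (kA A))

end Fermat.Agent.Ribet.H523.Q3

end
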