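import Fermat.Agent.Ribet.H523.Q3Red
import Fermat.Agent.Ribet.H523.Q3Lift
import Fermat.Agent.Ribet.H579.KumRed
import Fermat.Agent.Ribet.H708.KronField
import Fermat.Agent.Ribet.H158.WallQGood

/-!
# Row 37, WALL-q, (Q3) RED at good levels from GR-SURJ alone  (helper523)

    q3Good_of_grSurj : GRSurjStatement → H158.WallQ.Q3GoodStatement

Assembly of

* RED-CLASS `redEigenQ` (`Q3Red.lean`),
* EIGEN-LIFT at good levels `eigenLiftGood_of` (`Q3Lift.lean`), with the leaves
  KUM-RED (`H579.kumRed`, helper579) and KRON-FIELD (`H708.kronField`, helper708) plugged in.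

The last leaf GR-SURJ (`H937.grSurjStatement`, heavy closure: S27 torsion count) is plugged in
in `Q3Closed.lean`.
-/

set_option autoImplicit false
set_option linter.style.haveILetI false
set_option linter.unusedSectionVars false
set_option synthInstance.maxHeartbeats 400000
set_option maxHeartbeats 1000000

noncomputable section

namespace Fermat.Agent.Ribet.H523.Q3

open AlgebraicCurve ModularCurve HahnSeries
open Fermat.Agent.S24 Fermat.Agent.A2.H708 Fermat.Agent.A2.H528
open Fermat.Agent.Ribet.Spec Fermat.Agent.Ribet.H944.Wall Fermat.Agent.Ribet.H884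
open Fermat.Agent.Ribet.H158.WallQ
open Fermat.Agent.S37.H400

/-- **EIGEN-LIFT at good levels** from GR-SURJ alone. -/
theorem eigenLiftGood_of_grSurj (h : GRSurjStatement) : EigenLiftGoodStatement :=
  eigenLiftGood_of h Fermat.Agent.Ribet.H579.kumRed Fermat.Agent.Ribet.H708.kronField

/-- **EIGEN-LIFT at good levels, strong form**, from GR-SURJ alone. -/
theorem eigenLiftGoodStrong_of_grSurj (hS : GRSurjStatement)
    (p q M' : ℕ) [NeZero M'] (hp : p.Prime) (hq : q.Prime) (hq2 : q ≠ 2) (hqp : q ≠ p)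
    (hqM : ¬ q ∣ M') (hgood : 5 ≤ q ∨ 2 ∣ M')
    (A : ValuationSubring Kbar) (hA : A.LiesOverPrime q)
    (S : Finset ℕ) (a : ℕ → ℤ) (h : modularFunctionFieldFullC (kA A) M')
    (hh : IsRedEigen p M' S a h) :
    ∃ (z : JZero M') (f : FF M') (r : LaurentSeries (kA A)) (c : kA A)
      (u : modularFunctionFieldFullC (kA A) M'),
      z ≠ 0 ∧ p • z = 0 ∧ IsKummerGen M' p f z ∧ IsRedInf M' A f r ∧ c ≠ 0 ∧ u ≠ 0 ∧
      r = HahnSeries.C c * (h : LaurentSeries (kA A)) * (u : LaurentSeries (kA A)) ^ p ∧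
      ∀ ℓ : Nat.Primes, (ℓ : ℕ) ∉ S ∪ (q * M' * p).primeFactors →
        heckeOperatorBar M' ℓ z = a ℓ • z :=
  eigenLiftGood_strong hS Fermat.Agent.Ribet.H579.kumRed Fermat.Agent.Ribet.H708.kronField
    p q M' hp hq hq2 hqp hqM hgood A hA S a h hh

/-- (Q3) at good levels from RED-CLASS and EIGEN-LIFT at good levels. -/
theorem q3Good_of (h1 : RedEigenQStatement) (h2 : EigenLiftGoodStatement) :
    Q3GoodStatement := by
  intro p q M' _ _ _ hH A hA S a x hx hxS hnew heig
  obtain ⟨S', h, hSS', hh⟩ := h1 p q M' hH.p_prime hH.five_le hH.q_prime hH.q_ne_two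
    hH.q_ne_p hH.not_dvd A hA S a x hx hxS hnew heig
  obtain ⟨S'', hS'', hocc⟩ := h2 p q M' hH.p_prime hH.five_le hH.q_prime hH.q_ne_two
    hH.q_ne_p hH.not_dvd (hH.good.imp id And.right) A hA S' a h hh
  exact ⟨S'', hSS'.trans hS'', Or.inl hocc⟩

/-- **(Q3) RED at good levels from GR-SURJ alone.** -/
theorem q3Good_of_grSurj (h : GRSurjStatement) : Q3GoodStatement :=
  q3Good_of redEigenQ (eigenLiftGood_of_grSurj h)

end Fermat.Agent.Ribet.H523.Q3

end
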