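import Fermat.Agent.Ribet.H523.Q3Final
import Fermat.Agent.Ribet.H937.GRSurj

/-!
# Row 37, WALL-q, (Q3) RED at good levels: CLOSED, unconditional  (helper523)

    q3Good : H158.WallQ.Q3GoodStatement

`Q3Final.q3Good_of_grSurj` with the last leaf GR-SURJ plugged in
(`H937.grSurjStatement`, helper937 / helper386 / helper195).
Also `grSurj : GRSurjStatement` (form of `Q3Spec.lean`), `eigenLiftGood`, `eigenLiftGoodStrong`.
-/

set_option autoImplicit false
set_option linter.style.haveILetI false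
set_option linter.unusedSectionVars false
set_option synthInstance.maxHeartbeats 400000
set_option maxHeartbeats 1000000

noncomputable section

namespace Fermat.Agent.Ribet.H523.Q3

open AlgebraicCurve ModularCurve HahnSeries
open Fermat.Agent.S24 Fermat.Agent.A2.H708 Fermat.Agent.A2.H528
open Fermat.Agent.Ribet.Spec Fermat.Agent.Ribet.H944.Wall Fermat.Agent.Ribet.H884
open Fermat.Agent.Ribet.H158.WallQ
open Fermat.Agent.S37.H400

/-- **GR-SURJ** in the form of `Q3Spec.lean`, from helper937's `grSurjStatement`. -/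
theorem grSurj : GRSurjStatement := by
  intro p q M _ hp hq hq2 hqp hqM hgood A hA y hy
  have hqp' : ¬ q ∣ p := fun hd => hqp ((Nat.prime_dvd_prime_iff_eq hq hp).mp hd)
  exact Fermat.Agent.Ribet.H937.grSurjStatement M q hq hqM (goodLevel_of hq hq2 hgood) A hA p
    hqp' y hy

/-- **EIGEN-LIFT at good levels**, unconditional. -/
theorem eigenLiftGood : EigenLiftGoodStatement :=
  eigenLiftGood_of_grSurj grSurj

/-- **EIGEN-LIFT at good levels, strong form**, unconditional. -/
theorem eigenLiftGoodStrong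
    (p q M' : ℕ) [NeZero M'] (hp : p.Prime) (hq : q.Prime) (hq2 : q ≠ 2) (hqp : q ≠ p)
    (hqM : ¬ q ∣ M') (hgood : 5 ≤ q ∨ 2 ∣ M')
    (A : ValuationSubring Kbar) (hA : A.LiesOverPrime q)
    (S : Finset ℕ) (a : ℕ → ℤ) (h : modularFunctionFieldFullC (kA A) M')
    (hh : IsRedEigen p M' S a h) :
    ∃ (z : JZero M') (f : FF M') (r : LaurentSeries (kA A)) (c : kA A)
      (u : modularFunctionFieldFullC (kA A) M'),
      z ≠ 0 ∧ p • z = 0 ∧ IsKummerGen M' p f z ∧ IsRedInf M' A f r ∧ c ≠ 0 ∧ u ≠ 0 ∧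
      r = HahnSeries.C c * (h : LaurentSeries (kA A)) * (u : LaurentSeries (kA A)) ^ p ∧
      ∀ ℓ : Nat.Primes, (ℓ : ℕ) ∉ S ∪ (q * M' * p).primeFactors →
        heckeOperatorBar M' ℓ z = a ℓ • z :=
  eigenLiftGoodStrong_of_grSurj grSurj p q M' hp hq hq2 hqp hqM hgood A hA S a h hh

/-- **(Q3) RED at good levels: closed.** -/
theorem q3Good : Q3GoodStatement :=
  q3Good_of_grSurj grSurj

end Fermat.Agent.Ribet.H523.Q3

end
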