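import Fermat.Agent.Ribet.H523.Q3Spec
import Fermat.Agent.Ribet.H944.Closed
import Fermat.Agent.Ribet.H944.KumEig
import Fermat.Agent.Ribet.H376.I2Leaves
import Fermat.Agent.Ribet.H997.RedField

/-!
# Row 37, WALL-q, (Q3) RED, leaf RED-CLASS: PROVED  (helper523)

`redEigenQ : Q3.RedEigenQStatement`, unconditional, from leaves on main:
`H944.I2.kumEig`, `H376.frickeHecke`, `H376.heckeRed`, `H997.redExists`, `H997.redUnique`,
`H997.redField` and the multiplicativity lemmas of `H944/Closed.lean`.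

Also `finClosedQ`: `finPartQ = finSetQ` (the set of classes with a Kummer generator of slopes
`0` is a subgroup).
-/

set_option autoImplicit false
set_option linter.style.haveILetI false
set_option linter.unusedSectionVars false
set_option synthInstance.maxHeartbeats 400000
set_option maxHeartbeats 1000000

noncomputable section

namespace Fermat.Agent.Ribet.H523.Q3

open AlgebraicCurve ModularCurve HahnSeries
open Fermat.Agent.S24 Fermat.Agent.A2.H708 Fermat.Agent.A2.H528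
open Fermat.Agent.Ribet.Spec Fermat.Agent.Ribet.H944.Wall Fermat.Agent.Ribet.H884
open Fermat.Agent.Ribet.H158.WallQ
open Fermat.Agent.Ribet.H944.I2

/-! ## `finSetQ` is a subgroup -/

section Closed

variable (p q M' : ℕ) [NeZero (q * M')] (A : ValuationSubring Kbar)

theorem finGenQ_one : FinGenQ p q M' A (1 : FF (q * M')) :=
  ⟨1, 1, isRedInf_one _ A, by
    show IsRedInf (q * M') A (wF (q * M') 1) 1
    rw [map_one]; exact isRedInf_one _ A, pDivSeries_one p M', pDivSeries_one p M'⟩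

theorem finGenQ_mul {f g : FF (q * M')} (hf : FinGenQ p q M' A f) (hg : FinGenQ p q M' A g) :
    FinGenQ p q M' A (f * g) := by
  obtain ⟨r₁, r₂, h1, h2, h3, h4⟩ := hf
  obtain ⟨s₁, s₂, k1, k2, k3, k4⟩ := hg
  refine ⟨r₁ * s₁, r₂ * s₂, isRedInf_mul _ A h1 k1, ?_, pDivSeries_mul p M' h3 k3,
    pDivSeries_mul p M' h4 k4⟩
  show IsRedInf (q * M') A (wF (q * M') (f * g)) (r₂ * s₂)
  rw [map_mul]
  exact isRedInf_mul _ A h2 k2

theorem finGenQ_inv {f : FF (q * M')} (hf : FinGenQ p q M' A f) : FinGenQ p q M' A f⁻¹ := by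
  obtain ⟨r₁, r₂, h1, h2, h3, h4⟩ := hf
  refine ⟨r₁⁻¹, r₂⁻¹, isRedInf_inv _ A h1, ?_, pDivSeries_inv p M' h3, pDivSeries_inv p M' h4⟩
  show IsRedInf (q * M') A (wF (q * M') f⁻¹) r₂⁻¹
  rw [map_inv₀]
  exact isRedInf_inv _ A h2

/-- **CLOSED-q**: every element of `finPartQ` has a Kummer generator of slopes `0`. -/
theorem finClosedQ {x : JZero (q * M')} (hx : x ∈ finPartQ p q M' A) :
    x ∈ finSetQ p q M' A := by
  unfold finPartQ at hx
  induction hx using AddSubgroup.closure_induction with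
  | mem x hx => exact hx
  | zero => exact ⟨1, isKummerGen_one _ p, finGenQ_one p q M' A⟩
  | add x y _ _ hx hy =>
    obtain ⟨f, hf, hf'⟩ := hx
    obtain ⟨g, hg, hg'⟩ := hy
    exact ⟨f * g, isKummerGen_mul _ p hf hg, finGenQ_mul p q M' A hf' hg'⟩
  | neg x _ hx =>
    obtain ⟨f, hf, hf'⟩ := hx
    exact ⟨f⁻¹, isKummerGen_inv _ p hf, finGenQ_inv p q M' A hf'⟩

end Closed

/-! ## RED-CLASS -/

/-- **RED-CLASS**, unconditional. -/
theorem redEigenQ : RedEigenQStatement := by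
  intro p q M' _ _ _ hp _ hq _ hqp hqM A hA S a x hx hxS _ heig
  obtain ⟨f, hfK, r₁, r₂, hr1, hr2, hP1, hP2⟩ := finClosedQ p q M' A hx
  have hns : ¬ (PPowSeries p M' r₁ ∧ PPowSeries p M' r₂) := by
    rintro ⟨h1, h2⟩
    exact hxS (AddSubgroup.subset_closure ⟨f, hfK, r₁, r₂, hr1, hr2, h1, h2⟩)
  have hKf : ∀ (ℓ : ℕ) [NeZero ℓ], ℓ.Prime → ℓ ∉ S → ¬ ℓ ∣ q * M' →
      KummerEigen (q * M') p ℓ (a ℓ) f :=
    fun ℓ _ hℓ hℓS hℓN => kumEig (q * M') p hp.ne_zero S a x f hfK heig ℓ hℓ hℓS hℓN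
  -- the main step, for a pair `(F, r)`
  have key : ∀ (F : FF (q * M')) (r : LaurentSeries (kA A)), IsRedInf (q * M') A F r →
      PDivSeries p M' r → ¬ PPowSeries p M' r →
      (∀ (ℓ : ℕ) [NeZero ℓ], ℓ.Prime → ℓ ∉ S → ¬ ℓ ∣ q * M' →
        KummerEigen (q * M') p ℓ (a ℓ) F) →
      ∃ (S' : Finset ℕ) (h : modularFunctionFieldFullC (kA A) M'),
        S ⊆ S' ∧ IsRedEigen p M' S' a h := by
    intro F r hFr hPr hsr hKF
    obtain ⟨h, hh, h0, hdiv⟩ := hPr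
    refine ⟨S ∪ (q * M').primeFactors, h, Finset.subset_union_left, h0, hdiv,
      by rw [hh]; exact hsr, ?_⟩
    intro ℓ _ hℓ hℓS'
    have hℓS : ℓ ∉ S := fun e => hℓS' (Finset.mem_union_left _ e)
    have hℓN : ¬ ℓ ∣ q * M' := fun hd =>
      hℓS' (Finset.mem_union_right _ (Nat.mem_primeFactors.mpr ⟨hℓ, hd, NeZero.ne _⟩))
    obtain ⟨c, G, hc, hG, hN⟩ := hKF ℓ hℓ hℓS hℓN
    have h1 : IsRedInf (q * M') A (hNorm (q * M') ℓ F) (Fermat.Agent.S37.H697.knorm ℓ r) :=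
      Fermat.Agent.Ribet.H376.heckeRed (q * M') ℓ hℓ hℓN A F r hFr
    obtain ⟨rG, hrG⟩ := (Fermat.Agent.Ribet.H997.redExists q (q * M') hq A hA G hG).1
    have h2 : IsRedInf (q * M') A (hNorm (q * M') ℓ F) (1 * r ^ (a ℓ) * rG ^ p) := by
      rw [hN]
      exact isRedInf_mul _ A (isRedInf_mul _ A (isRedInf_const _ A hc)
        (isRedInf_zpow _ A hFr (a ℓ))) (isRedInf_pow _ A hrG p)
    obtain ⟨-, cb, hcb, hEq⟩ :=
      Fermat.Agent.Ribet.H997.redUnique q (q * M') hq A hA _ _ _ h2 h1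
    have hrG0 : rG ≠ 0 := (isRedInf_ne_zero _ A hrG).2
    obtain ⟨Gk, hGk⟩ :=
      Fermat.Agent.Ribet.H997.redField q M' hq hqM A hA G rG (Or.inl hrG)
    refine ⟨cb, Gk, hcb, fun e => hrG0 (by rw [← hGk, e]; rfl), ?_⟩
    rw [← Fermat.Agent.Ribet.H376.knorm_eq_kronNorm, hh, hGk, hEq, one_mul, mul_assoc]
  by_cases hs1 : PPowSeries p M' r₁
  · have hs2 : ¬ PPowSeries p M' r₂ := fun h2 => hns ⟨hs1, h2⟩
    exact key (wF (q * M') f) r₂ hr2 hP2 hs2
      (fun ℓ _ hℓ hℓS hℓN =>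
        (hKf ℓ hℓ hℓS hℓN).fricke Fermat.Agent.Ribet.H376.frickeHecke hℓ hℓN)
  · exact key f r₁ hr1 hP1 hs1 hKf

end Fermat.Agent.Ribet.H523.Q3

end
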